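/-
S17 / QF — leaves QF1, QF2, QF3 in GENERIC form (helper2014): canonical representatives of classes in `Pic⁰`
for a function field `F` over an algebraically closed field `K` of characteristic zero and a base place `P₀`:
existence (`exists_canonRepG`), uniqueness (`canonRepG_unique`), semilinear equivariance (`canonRepG_smul`).
Uses only the FND statements `finite_RR`, `ell_ge`, `ell_add_divF`, `degree_pt`, `degree_nonneg_of_nonneg`,
`divF_mul`, `eq_of_ell_eq_one`, `mem_valuationSubring_iff`, `evalAt_eq_iff`.  Fully proved relative to its imports.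
-/
import Fermat.Agent.S17.FND.Skel
import Fermat.Agent.S17.H.Defs

set_option autoImplicit false

open AlgebraicCurve

namespace Fermat.Agent.S17.QF

open Fermat.Agent.S17.H Fermat.Agent.S17.FND

section Generic

variable {K F : Type*} [Field K] [Field F] [Algebra K F]

/-- `D` is a canonical representative of the class `a` with respect to the base place `P₀`. -/
def IsCanonRepG (P₀ : Place K F) (a : Pic0 K F) (D : Divisor K F) : Prop :=
  IsRigid D ∧ D P₀ = 0 ∧ Divisor.degree D ≤ genusFF K F ∧
    ∃ E : Divisor.degZero (K := K) (F := F),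
      (E : Divisor K F) = D - Divisor.degree D • pt P₀ ∧ Pic0.mk E = a

theorem pt_apply_self (P : Place K F) : (pt P : Divisor K F) P = 1 := by
  simp [pt]

theorem pt_apply_ne {P v : Place K F} (h : v ≠ P) : (pt P : Divisor K F) v = 0 := by
  simp [pt, Ne.symm h]

theorem pt_nonneg (P : Place K F) : (0 : Divisor K F) ≤ pt P := by
  intro v
  by_cases h : v = P
  · subst h; rw [pt_apply_self]; exact zero_le_one
  · rw [pt_apply_ne h]; exact le_refl _

theorem nonneg_sub_pt {D : Divisor K F} (hD : 0 ≤ D) {P : Place K F} (hP : 1 ≤ D P) :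
    0 ≤ D - pt P := by
  intro v
  by_cases h : v = P
  · subst h
    show (0 : ℤ) ≤ (D - pt v) v
    rw [Finsupp.sub_apply, pt_apply_self]; linarith
  · show (0 : ℤ) ≤ (D - pt P) v
    rw [Finsupp.sub_apply, pt_apply_ne h, sub_zero]; exact hD v

/-- Two degree-zero divisors have the same class iff they differ by a principal divisor. -/
theorem mk_eq_mk_iff (E E' : Divisor.degZero (K := K) (F := F)) :
    Pic0.mk E = Pic0.mk E' ↔ Divisor.IsPrincipal ((E : Divisor K F) - (E' : Divisor K F)) := by
  have e : -(((-E + E' : Divisor.degZero (K := K) (F := F)) : Divisor K F))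
      = (E : Divisor K F) - (E' : Divisor K F) := by
    push_cast; abel
  constructor
  · intro h
    have h' : (QuotientAddGroup.mk E : Pic0 K F) = QuotientAddGroup.mk E' := h
    rw [QuotientAddGroup.eq] at h'
    have h2 : ((-E + E' : Divisor.degZero (K := K) (F := F)) : Divisor K F)
        ∈ Divisor.principal (K := K) (F := F) := h'
    have h3 := (Divisor.principal (K := K) (F := F)).neg_mem h2
    rw [e] at h3
    exact h3
  · intro h
    show (QuotientAddGroup.mk E : Pic0 K F) = QuotientAddGroup.mk E'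
    rw [QuotientAddGroup.eq]
    show ((-E + E' : Divisor.degZero (K := K) (F := F)) : Divisor K F)
        ∈ Divisor.principal (K := K) (F := F)
    have h3 := (Divisor.principal (K := K) (F := F)).neg_mem
      (show (E : Divisor K F) - (E' : Divisor K F) ∈ Divisor.principal (K := K) (F := F) from h)
    rw [← e, neg_neg] at h3
    exact h3

theorem isPrincipal_divF [HasPrincipalDivisors K F] {f : F} (hf : f ≠ 0) :
    Divisor.IsPrincipal (divF f : Divisor K F) :=
  ⟨f, hf, divF_apply f⟩

theorem eq_divF_of_isPrincipal [HasPrincipalDivisors K F] {D : Divisor K F}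
    (h : Divisor.IsPrincipal D) : ∃ f : F, f ≠ 0 ∧ D = divF f := by
  obtain ⟨f, hf, hD⟩ := h
  exact ⟨f, hf, Finsupp.ext fun v => by rw [hD v, divF_apply]⟩

theorem divF_one [HasPrincipalDivisors K F] : (divF (1 : F) : Divisor K F) = 0 :=
  Finsupp.ext fun v => by rw [divF_apply]; simp

theorem mem_RR_iff' [HasPrincipalDivisors K F] {D : Divisor K F} {f : F} (hf : f ≠ 0) :
    f ∈ riemannRochSpace D ↔ 0 ≤ divF f + D := by
  rw [mem_riemannRochSpace_iff]
  constructor
  · intro h v
    have := (h v).resolve_left hf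
    show (0 : ℤ) ≤ (divF f + D : Divisor K F) v
    rw [Finsupp.add_apply, divF_apply]; linarith
  · intro h v
    right
    have : (0 : ℤ) ≤ (divF f + D : Divisor K F) v := h v
    rw [Finsupp.add_apply, divF_apply] at this; linarith

theorem exists_ne_zero_mem_of_ell_ne_zero {D : Divisor K F} (h : ell D ≠ 0) :
    ∃ f : F, f ∈ riemannRochSpace D ∧ f ≠ 0 := by
  by_contra hcon
  push Not at hcon
  have hbot : riemannRochSpace D = ⊥ := (Submodule.eq_bot_iff _).mpr hcon
  apply h
  unfold ell
  rw [hbot]
  exact finrank_bot K F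

theorem one_mem_RR_of_nonneg {D : Divisor K F} (hD : 0 ≤ D) : (1 : F) ∈ riemannRochSpace D := by
  rw [mem_riemannRochSpace_iff]
  intro v
  right
  rw [Place.ord_one]
  have : (0 : ℤ) ≤ D v := hD v
  linarith

theorem algebraMap_mem_RR_of_nonneg {D : Divisor K F} (hD : 0 ≤ D) (c : K) :
    algebraMap K F c ∈ riemannRochSpace D := by
  have := (riemannRochSpace D).smul_mem c (one_mem_RR_of_nonneg hD)
  rwa [Algebra.smul_def, mul_one] at this

end Generic

section Curve

variable {K F : Type*} [Field K] [Field F] [Algebra K F]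
variable [IsAlgClosed K] [CharZero K] [IsCurveOver K F] [Algebra.EssFiniteType K F]

theorem ell_ne_zero_of_mem {D : Divisor K F} {f : F} (hf : f ∈ riemannRochSpace D) (hf0 : f ≠ 0) :
    ell D ≠ 0 := by
  have := finite_RR D
  unfold ell
  have : 0 < Module.finrank K (riemannRochSpace D) := by
    rw [Module.finrank_pos_iff_exists_ne_zero]
    exact ⟨⟨f, hf⟩, fun h => hf0 (congrArg Subtype.val h)⟩
  omega

theorem exists_nonconstant_of_two_le_ell {D : Divisor K F} (h : 2 ≤ ell D) :
    ∃ u : F, u ∈ riemannRochSpace D ∧ ∀ c : K, u ≠ algebraMap K F c := by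
  by_contra hcon
  push Not at hcon
  have hle : riemannRochSpace D ≤ Submodule.span K {(1 : F)} := by
    intro u hu
    obtain ⟨c, hc⟩ := hcon u hu
    rw [Submodule.mem_span_singleton]
    exact ⟨c, by rw [hc, Algebra.smul_def, mul_one]⟩
  have h1 : Module.finrank K (riemannRochSpace D) ≤ Module.finrank K (Submodule.span K {(1 : F)}) :=
    Submodule.finrank_mono hle
  rw [finrank_span_singleton (one_ne_zero)] at h1
  unfold ell at h
  omega

/-- QF1 (generic): every class has a canonical representative. -/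
theorem exists_canonRepG (P₀ : Place K F) (a : Pic0 K F) :
    ∃ D : Divisor K F, IsCanonRepG P₀ a D := by
  classical
  obtain ⟨A, rfl⟩ := Pic0.mk_surjective a
  have hA : Divisor.degree (A : Divisor K F) = 0 := Divisor.mem_degZero.mp A.2
  have hg : ell ((A : Divisor K F) + ((genusFF K F : ℕ) : ℤ) • pt P₀) ≠ 0 := by
    have h := ell_ge ((A : Divisor K F) + ((genusFF K F : ℕ) : ℤ) • pt P₀)
    rw [map_add, map_zsmul, degree_pt, hA] at h
    simp only [smul_eq_mul, mul_one, zero_add] at h
    omega
  have hex : ∃ n : ℕ, ell ((A : Divisor K F) + (n : ℤ) • pt P₀) ≠ 0 := ⟨genusFF K F, hg⟩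
  obtain ⟨n, hn1, hmin⟩ : ∃ n : ℕ, ell ((A : Divisor K F) + (n : ℤ) • pt P₀) ≠ 0 ∧
      ∀ k : ℕ, k < n → ell ((A : Divisor K F) + (k : ℤ) • pt P₀) = 0 :=
    ⟨Nat.find hex, Nat.find_spec hex, fun k hk => by simpa using Nat.find_min hex hk⟩
  have hng : n ≤ genusFF K F := by
    by_contra hlt
    exact hg (hmin _ (by omega))
  obtain ⟨f, hfm, hf0⟩ := exists_ne_zero_mem_of_ell_ne_zero hn1
  set D : Divisor K F := (A : Divisor K F) + (n : ℤ) • pt P₀ + divF f with hD
  have hD0 : 0 ≤ D := by
    have := (mem_RR_iff' hf0).mp hfm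
    rw [hD, add_comm]; exact this
  have hdeg : Divisor.degree D = n := by
    rw [hD, map_add, map_add, map_zsmul, degree_pt, hA, degree_divF]; simp
  -- no nonzero function in `L(D - P₀)`
  have hkey : ∀ w : F, w ≠ 0 → ¬ (0 ≤ divF w + (D - pt P₀)) := by
    intro w hw hle
    rcases Nat.eq_zero_or_pos n with h0 | hpos
    · have := degree_nonneg_of_nonneg hle
      rw [map_add, map_sub, degree_divF, hdeg, degree_pt, h0] at this
      simp at this
    · have hwf : w * f ≠ 0 := mul_ne_zero hw hf0
      have hmem : w * f ∈ riemannRochSpace ((A : Divisor K F) + ((n - 1 : ℕ) : ℤ) • pt P₀) := by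
        rw [mem_RR_iff' hwf, divF_mul hw hf0]
        have e : divF w + divF f + ((A : Divisor K F) + ((n - 1 : ℕ) : ℤ) • pt P₀)
            = divF w + (D - pt P₀) := by
          rw [hD, Nat.cast_sub hpos, sub_smul]
          simp only [Nat.cast_one, one_smul]
          abel
        rw [e]; exact hle
      exact ell_ne_zero_of_mem hmem hwf (hmin (n - 1) (by omega))
  have hDP : D P₀ = 0 := by
    by_contra hne
    have h1 : 1 ≤ D P₀ := by
      have := hD0 P₀
      have h0 : (0 : ℤ) ≤ D P₀ := this
      omega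
    apply hkey 1 one_ne_zero
    rw [divF_one, zero_add]
    exact nonneg_sub_pt hD0 h1
  have hell : ell D = 1 := by
    have h1 : ell D = ell ((A : Divisor K F) + (n : ℤ) • pt P₀) := by
      rw [hD]; exact ell_add_divF _ hf0
    by_contra hne
    have h2 : 2 ≤ ell D := by omega
    obtain ⟨u, hu, hnc⟩ := exists_nonconstant_of_two_le_ell h2
    have hu0 : u ≠ 0 := fun h => hnc 0 (by rw [h, map_zero])
    have hule : 0 ≤ divF u + D := (mem_RR_iff' hu0).mp hu
    have hord : 0 ≤ P₀.ord u := by
      have : (0 : ℤ) ≤ (divF u + D : Divisor K F) P₀ := hule P₀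
      rw [Finsupp.add_apply, divF_apply, hDP, add_zero] at this
      exact this
    have hreg : u ∈ P₀.toValuationSubring := (mem_valuationSubring_iff P₀ u).mpr hord
    set c := evalAt P₀ u with hc
    have hw := (evalAt_eq_iff P₀ hreg c).mp rfl
    have hw' : 0 < P₀.ord (u - algebraMap K F c) := hw.resolve_left (hnc c)
    set w := u - algebraMap K F c with hwdef
    have hw0 : w ≠ 0 := sub_ne_zero.mpr (hnc c)
    have hwm : w ∈ riemannRochSpace D :=
      (riemannRochSpace D).sub_mem hu (algebraMap_mem_RR_of_nonneg hD0 c)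
    have hwle : 0 ≤ divF w + D := (mem_RR_iff' hw0).mp hwm
    apply hkey w hw0
    rw [← add_sub_assoc]
    refine nonneg_sub_pt hwle ?_
    rw [Finsupp.add_apply, divF_apply, hDP, add_zero]
    omega
  refine ⟨D, ⟨hD0, hell⟩, hDP, by rw [hdeg]; exact_mod_cast hng, ?_⟩
  have hmemE : D - Divisor.degree D • pt P₀ ∈ Divisor.degZero (K := K) (F := F) := by
    rw [Divisor.mem_degZero, map_sub, map_zsmul, degree_pt]; simp
  refine ⟨⟨D - Divisor.degree D • pt P₀, hmemE⟩, rfl, ?_⟩
  rw [mk_eq_mk_iff]
  have e : ((⟨D - Divisor.degree D • pt P₀, hmemE⟩ : Divisor.degZero (K := K) (F := F)) :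
      Divisor K F) - (A : Divisor K F) = divF f := by
    show D - Divisor.degree D • pt P₀ - (A : Divisor K F) = divF f
    rw [hdeg, hD]; abel
  rw [e]
  exact isPrincipal_divF hf0

theorem canonRepG_unique_aux {P₀ : Place K F} {a : Pic0 K F} {D D' : Divisor K F}
    (h : IsCanonRepG P₀ a D) (h' : IsCanonRepG P₀ a D')
    (hle : Divisor.degree D ≤ Divisor.degree D') : D = D' := by
  obtain ⟨⟨hD0, -⟩, hDP, -, E, hE, hEa⟩ := h
  obtain ⟨⟨hD0', hD1'⟩, hDP', -, E', hE', hEa'⟩ := h'
  have hp : Divisor.IsPrincipal ((E : Divisor K F) - (E' : Divisor K F)) :=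
    (mk_eq_mk_iff E E').mp (hEa.trans hEa'.symm)
  obtain ⟨u, hu, hu'⟩ := eq_divF_of_isPrincipal hp
  set k : ℤ := Divisor.degree D' - Divisor.degree D with hk
  have e : D + k • pt P₀ = D' + divF u := by
    rw [← hu', hE, hE', hk, sub_smul]; abel
  have hnn : 0 ≤ D + k • pt P₀ := by
    intro v
    show (0 : ℤ) ≤ (D + k • pt P₀) v
    rw [Finsupp.add_apply, Finsupp.smul_apply, smul_eq_mul]
    have h1 : (0 : ℤ) ≤ D v := hD0 v
    have h2 : (0 : ℤ) ≤ (pt P₀ : Divisor K F) v := pt_nonneg P₀ v
    have h3 : 0 ≤ k := by rw [hk]; linarith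
    positivity
  have key := eq_of_ell_eq_one hD0' hnn hD1' hu e
  have hk0 : k = 0 := by
    have h2 := DFunLike.congr_fun key P₀
    rw [Finsupp.add_apply, Finsupp.smul_apply, smul_eq_mul, pt_apply_self, hDP, hDP'] at h2
    linarith
  rw [hk0, zero_smul, add_zero] at key
  exact key

/-- QF2 (generic): the canonical representative is unique. -/
theorem canonRepG_unique {P₀ : Place K F} {a : Pic0 K F} {D D' : Divisor K F}
    (h : IsCanonRepG P₀ a D) (h' : IsCanonRepG P₀ a D') : D = D' := by
  rcases le_total (Divisor.degree D) (Divisor.degree D') with hle | hle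
  · exact canonRepG_unique_aux h h' hle
  · exact (canonRepG_unique_aux h' h hle).symm

end Curve

section Semilinear

variable {K F : Type*} [Field K] [Field F] [Algebra K F]

theorem smul_mem_RR_iff (g : SemilinearAut K F) (D : Divisor K F) (f : F) :
    g • f ∈ riemannRochSpace (g • D) ↔ f ∈ riemannRochSpace D := by
  rw [mem_riemannRochSpace_iff, mem_riemannRochSpace_iff]
  have h0 : g • f = 0 ↔ f = 0 := smul_eq_zero_iff_eq g
  constructor
  · intro h v
    have := h (g • v)
    rwa [SemilinearAut.divisor_smul_apply_smul, SemilinearAut.ord_smul, h0] at this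
  · intro h w
    have := h (g⁻¹ • w)
    have e1 : (g • D) w = D (g⁻¹ • w) := SemilinearAut.divisor_smul_apply g D w
    have e2 : w.ord (g • f) = (g⁻¹ • w).ord f := by
      have := SemilinearAut.ord_smul g (g⁻¹ • w) f
      rwa [smul_inv_smul] at this
    rwa [e1, e2, h0]

/-- `ℓ` is invariant under semilinear automorphisms. -/
theorem ell_smul (g : SemilinearAut K F) (D : Divisor K F) : ell (g • D) = ell D := by
  let j : riemannRochSpace D ≃+ riemannRochSpace (g • D) :=
    { toFun := fun x => ⟨g • (x : F), (smul_mem_RR_iff g D x).mpr x.2⟩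
      invFun := fun y => ⟨g⁻¹ • (y : F), by
        have := smul_mem_RR_iff g D (g⁻¹ • (y : F))
        rw [smul_inv_smul] at this
        exact this.mp y.2⟩
      left_inv := fun x => Subtype.ext (inv_smul_smul g (x : F))
      right_inv := fun y => Subtype.ext (smul_inv_smul g (y : F))
      map_add' := fun x y => Subtype.ext (smul_add g (x : F) (y : F)) }
  have hr := rank_eq_of_equiv_equiv (SemilinearAut.baseAut g) j (SemilinearAut.baseAut g).bijective
    (fun r m => by
      apply Subtype.ext
      show g • (r • (m : F)) = SemilinearAut.baseAut g r • (g • (m : F))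
      rw [Algebra.smul_def, Algebra.smul_def, smul_mul', SemilinearAut.smul_algebraMap])
  unfold ell Module.finrank
  rw [hr]

theorem smul_nonneg_divisor (g : SemilinearAut K F) {D : Divisor K F} (hD : 0 ≤ D) : 0 ≤ g • D := by
  intro w
  show (0 : ℤ) ≤ (g • D) w
  rw [SemilinearAut.divisor_smul_apply]
  exact hD _

theorem smul_pt (g : SemilinearAut K F) (P : Place K F) : g • (pt P : Divisor K F) = pt (g • P) :=
  SemilinearAut.smul_single g P 1

/-- QF3 (generic): canonical representatives are transported by semilinear automorphisms. -/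
theorem canonRepG_smul (g : SemilinearAut K F) {P₀ : Place K F} {a : Pic0 K F} {D : Divisor K F}
    (h : IsCanonRepG P₀ a D) : IsCanonRepG (g • P₀) (g • a) (g • D) := by
  obtain ⟨⟨hD0, hD1⟩, hDP, hDg, E, hE, hEa⟩ := h
  refine ⟨⟨smul_nonneg_divisor g hD0, by rw [ell_smul, hD1]⟩, ?_, ?_, ?_⟩
  · rw [SemilinearAut.divisor_smul_apply_smul, hDP]
  · rw [SemilinearAut.degree_smul]; exact hDg
  · refine ⟨SemilinearAut.degZeroSMulHom g E, ?_, ?_⟩
    · rw [SemilinearAut.coe_degZeroSMulHom, hE, smul_sub, SemilinearAut.degree_smul, ← smul_pt]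
      congr 1
      exact map_zsmul (DistribSMul.toAddMonoidHom (Divisor K F) g) _ _
    · rw [← SemilinearAut.pic0_smul_mk, hEa]

end Semilinear

end Fermat.Agent.S17.QF
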