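/-
S17 / QF — formal lemmas on the bilinear pairing `Lam` (helper2014).  Mathlib + H/Defs only, no sorry.
-/
import Fermat.Agent.S17.H.Defs

set_option autoImplicit false

open AlgebraicCurve

namespace Fermat.Agent.S17.QF

open Fermat.Agent.S17.H Fermat.Agent.S17.FND

variable {K F : Type*} [Field K] [Field F] [Algebra K F]

theorem Lam_add_left (δ : Place K F → Place K F → ℝ) (D D' E : Divisor K F) :
    Lam δ (D + D') E = Lam δ D E + Lam δ D' E := by
  unfold Lam
  rw [Finsupp.sum_add_index']
  · intro P; simp
  · intro P n n'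
    rw [← Finsupp.sum_add]
    refine Finsupp.sum_congr fun Q _ => ?_
    push_cast; ring

theorem Lam_add_right (δ : Place K F → Place K F → ℝ) (D E E' : Divisor K F) :
    Lam δ D (E + E') = Lam δ D E + Lam δ D E' := by
  unfold Lam
  rw [← Finsupp.sum_add]
  refine Finsupp.sum_congr fun P _ => ?_
  rw [Finsupp.sum_add_index']
  · intro Q; simp
  · intro Q m m'; push_cast; ring

theorem Lam_zero_left (δ : Place K F → Place K F → ℝ) (E : Divisor K F) : Lam δ 0 E = 0 := by
  simp [Lam]

theorem Lam_zero_right (δ : Place K F → Place K F → ℝ) (D : Divisor K F) : Lam δ D 0 = 0 := by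
  simp [Lam]

theorem Lam_neg_left (δ : Place K F → Place K F → ℝ) (D E : Divisor K F) :
    Lam δ (-D) E = - Lam δ D E := by
  have h := Lam_add_left δ D (-D) E
  rw [add_neg_cancel, Lam_zero_left] at h
  linarith

theorem Lam_neg_right (δ : Place K F → Place K F → ℝ) (D E : Divisor K F) :
    Lam δ D (-E) = - Lam δ D E := by
  have h := Lam_add_right δ D E (-E)
  rw [add_neg_cancel, Lam_zero_right] at h
  linarith

theorem Lam_sub_left (δ : Place K F → Place K F → ℝ) (D D' E : Divisor K F) :
    Lam δ (D - D') E = Lam δ D E - Lam δ D' E := by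
  rw [sub_eq_add_neg, Lam_add_left, Lam_neg_left]; ring

theorem Lam_sub_right (δ : Place K F → Place K F → ℝ) (D E E' : Divisor K F) :
    Lam δ D (E - E') = Lam δ D E - Lam δ D E' := by
  rw [sub_eq_add_neg, Lam_add_right, Lam_neg_right]; ring

theorem Lam_symm {δ : Place K F → Place K F → ℝ} (hδ : ∀ P Q, δ P Q = δ Q P)
    (D E : Divisor K F) : Lam δ D E = Lam δ E D := by
  unfold Lam
  rw [Finsupp.sum_comm]
  refine Finsupp.sum_congr fun P _ => Finsupp.sum_congr fun Q _ => ?_
  rw [hδ Q P]; ring

theorem Lam_zsmul_right (δ : Place K F → Place K F → ℝ) (D E : Divisor K F) (n : ℤ) :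
    Lam δ D (n • E) = n * Lam δ D E := by
  induction n using Int.induction_on with
  | zero => simp [Lam_zero_right]
  | succ k ih =>
    rw [add_smul, one_smul, Lam_add_right, ih]; push_cast; ring
  | pred k ih =>
    rw [sub_smul, one_smul, Lam_sub_right, ih]; push_cast; ring

/-- Expansion of the second variable over its support. -/
theorem Lam_right_eq_sum (δ : Place K F → Place K F → ℝ) (D E : Divisor K F) :
    Lam δ D E = E.sum fun Q m => (m : ℝ) * Lam δ D (pt Q) := by
  induction E using Finsupp.induction_linear with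
  | zero => simp [Lam_zero_right]
  | add E E' ih ih' =>
    rw [Lam_add_right, ih, ih', Finsupp.sum_add_index']
    · intro Q; simp
    · intro Q m m'; push_cast; ring
  | single Q m =>
    rw [Finsupp.sum_single_index (by simp)]
    have : (Finsupp.single Q m : Divisor K F) = m • pt Q := by
      simp [pt]
    rw [this, Lam_zsmul_right]

end Fermat.Agent.S17.QF
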