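/-
S17 / QF — leaf QF4: the quadratic form is a class function up to O(1) (helper2014).
Uses only `delta_symm`, `delta_classInv` of `H/Interfaces.lean`.  Fully proved relative to its imports.
-/
import Fermat.Agent.S17.H.Interfaces
import Fermat.Agent.S17.QF.Pairing

set_option autoImplicit false

open AlgebraicCurve ModularCurve

namespace Fermat.Agent.S17.QF

open Fermat.Agent.S17.H Fermat.Agent.S17.FND

section Generic

variable {K F : Type*} [Field K] [Field F] [Algebra K F]

theorem degree_eq_sum [IsAlgClosed K] [IsCurveOver K F] (D : Divisor K F) :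
    Divisor.degree D = D.sum fun _ n => n := by
  unfold Divisor.degree
  rw [Finsupp.liftAddHom_apply]
  refine Finsupp.sum_congr fun v _ => ?_
  simp [IsCurveOver.deg_eq_one_of_isAlgClosed v]

theorem size_cast (D : Divisor K F) : ((size D : ℕ) : ℝ) = D.sum fun _ n => |(n : ℝ)| := by
  unfold size
  rw [Finsupp.sum, Finsupp.sum]
  push_cast
  refine Finset.sum_congr rfl fun v _ => ?_
  rw [Nat.cast_natAbs, Int.cast_abs]

/-- If `|Λ(D, Q − P₀)| ≤ C` for all `Q`, then `|Λ(D, A)| ≤ size A · C` for every `A` of degree `0`. -/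
theorem abs_Lam_le_of_degree_zero [IsAlgClosed K] [IsCurveOver K F]
    (δ : Place K F → Place K F → ℝ) (P₀ : Place K F) (D : Divisor K F) {C : ℝ}
    (hC : ∀ Q : Place K F, |Lam δ D (pt Q - pt P₀)| ≤ C) (A : Divisor K F)
    (hA : Divisor.degree A = 0) : |Lam δ D A| ≤ size A * C := by
  have h1 : Lam δ D A = A.sum fun Q m => (m : ℝ) * Lam δ D (pt Q - pt P₀) := by
    rw [Lam_right_eq_sum]
    have h0 : (A.sum fun _ m => (m : ℝ) * Lam δ D (pt P₀)) = 0 := by
      have hs : (A.sum fun _ m => (m : ℝ)) = 0 := by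
        have := degree_eq_sum A
        rw [hA] at this
        have h2 : ((A.sum fun _ n => n : ℤ) : ℝ) = 0 := by rw [← this]; simp
        rw [Finsupp.sum] at h2 ⊢
        push_cast at h2
        exact h2
      rw [Finsupp.sum] at hs ⊢
      rw [← Finset.sum_mul, hs, zero_mul]
    rw [← sub_zero (A.sum fun Q m => (m : ℝ) * Lam δ D (pt Q)), ← h0, ← Finsupp.sum_sub]
    refine Finsupp.sum_congr fun Q _ => ?_
    rw [Lam_sub_right]; ring
  rw [h1, size_cast, Finsupp.sum, Finsupp.sum, Finset.sum_mul]
  refine (Finset.abs_sum_le_sum_abs _ _).trans (Finset.sum_le_sum fun Q _ => ?_)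
  rw [abs_mul]
  exact mul_le_mul_of_nonneg_left (hC Q) (abs_nonneg _)

theorem size_sub_le (A B : Divisor K F) : size (A - B) ≤ size A + size B := by
  classical
  unfold size
  have key : ∀ (D : Divisor K F) (s : Finset (Place K F)), D.support ⊆ s →
      (D.sum fun _ n => n.natAbs) = ∑ v ∈ s, (D v).natAbs := by
    intro D s hs
    rw [Finsupp.sum]
    refine Finset.sum_subset hs fun v _ hv => ?_
    simp [Finsupp.notMem_support_iff.mp hv]
  set s := A.support ∪ B.support with hs
  rw [key (A - B) s (Finsupp.support_sub.trans (by rw [hs])),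
    key A s Finset.subset_union_left, key B s Finset.subset_union_right, ← Finset.sum_add_distrib]
  refine Finset.sum_le_sum fun v _ => ?_
  rw [Finsupp.sub_apply]
  exact Int.natAbs_sub_le _ _

end Generic

variable {F₀ : IntermediateField ℚ (LaurentSeries ℚ)}
  [IsCurveOver Qbar (FB F₀)] [Algebra.EssFiniteType Qbar (FB F₀)]

/-- QF4: the quadratic form is a class function up to `O(1)` on degree-0 divisors of bounded size. -/
theorem qForm_classInv' (S : Setup F₀) (M : ℕ) :
    ∃ C : ℝ, ∀ A A' : Divisor Qbar (FB F₀), Divisor.degree A = 0 → Divisor.degree A' = 0 →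
      size A ≤ M → size A' ≤ M → Divisor.IsPrincipal (A - A') →
      |Lam (delta S.φ) A A - Lam (delta S.φ) A' A'| ≤ C := by
  obtain ⟨C, hC⟩ := delta_classInv S (2 * M)
  refine ⟨2 * (M * C), fun A A' hA hA' hsA hsA' hP => ?_⟩
  have hC0 : 0 ≤ C := (abs_nonneg _).trans (hC (A - A') hP
    ((size_sub_le A A').trans (by omega)) S.P₀)
  have hD : size (A - A') ≤ 2 * M := (size_sub_le A A').trans (by omega)
  have e : Lam (delta S.φ) A A - Lam (delta S.φ) A' A'
      = Lam (delta S.φ) (A - A') A + Lam (delta S.φ) (A - A') A' := by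
    rw [Lam_sub_left, Lam_sub_left, Lam_symm (delta_symm S) A' A]; ring
  rw [e]
  have b1 := abs_Lam_le_of_degree_zero (delta S.φ) S.P₀ (A - A') (hC (A - A') hP hD) A hA
  have b2 := abs_Lam_le_of_degree_zero (delta S.φ) S.P₀ (A - A') (hC (A - A') hP hD) A' hA'
  have c1 : (size A : ℝ) * C ≤ M * C :=
    mul_le_mul_of_nonneg_right (by exact_mod_cast hsA) hC0
  have c2 : (size A' : ℝ) * C ≤ M * C :=
    mul_le_mul_of_nonneg_right (by exact_mod_cast hsA') hC0
  calc |Lam (delta S.φ) (A - A') A + Lam (delta S.φ) (A - A') A'|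
      ≤ |Lam (delta S.φ) (A - A') A| + |Lam (delta S.φ) (A - A') A'| := abs_add_le _ _
    _ ≤ 2 * (M * C) := by linarith

end Fermat.Agent.S17.QF
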