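/-
S17 / QF — FINAL ASSEMBLY of package QF (helper2014): `exists_height_H` (= the stub `exists_height` of `Top.lean`)
from `H/Interfaces.lean` (deliverables of BR/FND/HT/INC/CERT) and the FND statements used in `QF/Canon.lean`.
Contains the definitions and all leaves QF1–QF7 of `QF/Skel.lean` (same names, now proved): do NOT import this
file together with `QF/Skel.lean`.  Fully proved relative to its imports.
  QF1–QF3: `QF/Canon.lean` (generic) ; QF4: `QF/ClassInv.lean` ; QF5–QF7: here.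
-/
import Fermat.Agent.S17.QF.ClassInv
import Fermat.Agent.S17.QF.Canon

set_option autoImplicit false

open AlgebraicCurve ModularCurve

namespace Fermat.Agent.S17.QF

open Fermat.Agent.S17.H Fermat.Agent.S17.FND

section Generic

variable {K F : Type*} [Field K] [Field F] [Algebra K F]

theorem size_add_le (A B : Divisor K F) : size (A + B) ≤ size A + size B := by
  classical
  unfold size
  have key : ∀ (D : Divisor K F) (s : Finset (Place K F)), D.support ⊆ s →
      (D.sum fun _ n => n.natAbs) = ∑ v ∈ s, (D v).natAbs := by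
    intro D s hs
    rw [Finsupp.sum]
    refine Finset.sum_subset hs fun v _ hv => ?_
    simp [Finsupp.notMem_support_iff.mp hv]
  set s := A.support ∪ B.support with hs
  rw [key (A + B) s (Finsupp.support_add.trans (by rw [hs])),
    key A s Finset.subset_union_left, key B s Finset.subset_union_right, ← Finset.sum_add_distrib]
  refine Finset.sum_le_sum fun v _ => ?_
  rw [Finsupp.add_apply]
  exact Int.natAbs_add_le _ _

theorem size_zsmul_pt (n : ℤ) (P : Place K F) : size (n • pt P) = n.natAbs := by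
  unfold size
  rw [show (n • pt P : Divisor K F) = Finsupp.single P n by simp [pt]]
  exact Finsupp.sum_single_index (by simp)

theorem size_eq_degree_of_nonneg [IsAlgClosed K] [IsCurveOver K F] {D : Divisor K F}
    (hD : 0 ≤ D) : (size D : ℤ) = Divisor.degree D := by
  rw [degree_eq_sum]
  unfold size
  rw [Finsupp.sum, Finsupp.sum]
  push_cast
  refine Finset.sum_congr rfl fun v _ => ?_
  exact abs_of_nonneg (hD v)

theorem hSum_nonneg {h : Place K F → ℝ} (hh : ∀ P, 0 ≤ h P) {D : Divisor K F} (hD : 0 ≤ D) :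
    0 ≤ hSum h D := by
  unfold hSum
  rw [Finsupp.sum]
  refine Finset.sum_nonneg fun P _ => mul_nonneg ?_ (hh P)
  exact_mod_cast hD P

/-- The polarisation identity for the exactly bilinear pairing. -/
theorem Lam_parallelogram (δ : Place K F → Place K F → ℝ) (A B : Divisor K F) :
    Lam δ (A + B) (A + B) + Lam δ (A - B) (A - B) = 2 * Lam δ A A + 2 * Lam δ B B := by
  rw [Lam_add_left, Lam_add_right, Lam_add_right, Lam_sub_left, Lam_sub_right, Lam_sub_right]
  ring

end Generic

variable {F₀ : IntermediateField ℚ (LaurentSeries ℚ)}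
  [IsCurveOver Qbar (FB F₀)] [Algebra.EssFiniteType Qbar (FB F₀)]

/-- The Mordell–Weil group (same as `Fermat.Agent.S17.MW`). -/
abbrev MWG (F₀ : IntermediateField ℚ (LaurentSeries ℚ)) : Type :=
  ↥(FixedPoints.addSubgroup GalQ (Pic0 Qbar (FB F₀)))

/-- `D` is a canonical representative of the class `a`: rigid effective, avoiding `P₀`, of degree `≤ g`,
with `[D − deg D · P₀] = a`. -/
def IsCanonRep (S : Setup F₀) (a : Pic0 Qbar (FB F₀)) (D : Divisor Qbar (FB F₀)) : Prop :=
  IsRigid D ∧ D S.P₀ = 0 ∧ Divisor.degree D ≤ genusFF Qbar (FB F₀) ∧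
    ∃ E : Divisor.degZero (K := Qbar) (F := FB F₀),
      (E : Divisor Qbar (FB F₀)) = D - Divisor.degree D • pt S.P₀ ∧ Pic0.mk E = a

theorem isCanonRep_iff (S : Setup F₀) (a : Pic0 Qbar (FB F₀)) (D : Divisor Qbar (FB F₀)) :
    IsCanonRep S a D ↔ IsCanonRepG S.P₀ a D := Iff.rfl

/-- QF1. -/
theorem exists_canonicalRep (S : Setup F₀) (a : Pic0 Qbar (FB F₀)) :
    ∃ D : Divisor Qbar (FB F₀), IsCanonRep S a D :=
  exists_canonRepG S.P₀ a

/-- QF2. -/
theorem canonicalRep_unique (S : Setup F₀) {a : Pic0 Qbar (FB F₀)} {D D' : Divisor Qbar (FB F₀)}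
    (h : IsCanonRep S a D) (h' : IsCanonRep S a D') : D = D' :=
  canonRepG_unique h h'

/-- The canonical representative of a class. -/
noncomputable def canonRep (S : Setup F₀) (a : Pic0 Qbar (FB F₀)) : Divisor Qbar (FB F₀) :=
  (exists_canonicalRep S a).choose

theorem canonRep_spec (S : Setup F₀) (a : Pic0 Qbar (FB F₀)) : IsCanonRep S a (canonRep S a) :=
  (exists_canonicalRep S a).choose_spec

/-- QF3. -/
theorem canonRep_stable (S : Setup F₀) (x : MWG F₀) : IsStable (canonRep S (x : Pic0 Qbar (FB F₀))) := by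
  intro σ
  have h := canonRepG_smul (arithmeticGalois F₀ σ) (canonRep_spec S (x : Pic0 Qbar (FB F₀)))
  rw [S.fixed σ] at h
  have hx : arithmeticGalois F₀ σ • (x : Pic0 Qbar (FB F₀)) = (x : Pic0 Qbar (FB F₀)) := x.2 σ
  rw [hx] at h
  exact canonicalRep_unique S h (canonRep_spec S (x : Pic0 Qbar (FB F₀)))

/-- QF4: the quadratic form is a class function up to `O(1)` on degree-0 divisors of bounded size. -/
theorem qForm_classInv (S : Setup F₀) (M : ℕ) :
    ∃ C : ℝ, ∀ A A' : Divisor Qbar (FB F₀), Divisor.degree A = 0 → Divisor.degree A' = 0 →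
      size A ≤ M → size A' ≤ M → Divisor.IsPrincipal (A - A') →
      |Lam (delta S.φ) A A - Lam (delta S.φ) A' A'| ≤ C :=
  qForm_classInv' S M

/-- The height on the Mordell–Weil group. -/
noncomputable def hMW (S : Setup F₀) (x : MWG F₀) : ℝ :=
  qForm (delta S.φ) S.P₀ (canonRep S (x : Pic0 Qbar (FB F₀)))

/-- The degree-0 divisor `canonRep − deg · P₀` attached to a class. -/
noncomputable def zRep (S : Setup F₀) (a : Pic0 Qbar (FB F₀)) : Divisor Qbar (FB F₀) :=
  canonRep S a - Divisor.degree (canonRep S a) • pt S.P₀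

theorem hMW_eq (S : Setup F₀) (x : MWG F₀) :
    hMW S x = - Lam (delta S.φ) (zRep S (x : Pic0 Qbar (FB F₀))) (zRep S (x : Pic0 Qbar (FB F₀))) :=
  rfl

theorem zRep_spec (S : Setup F₀) (a : Pic0 Qbar (FB F₀)) :
    ∃ E : Divisor.degZero (K := Qbar) (F := FB F₀),
      (E : Divisor Qbar (FB F₀)) = zRep S a ∧ Pic0.mk E = a :=
  (canonRep_spec S a).2.2.2

theorem degree_zRep (S : Setup F₀) (a : Pic0 Qbar (FB F₀)) : Divisor.degree (zRep S a) = 0 := by
  obtain ⟨E, hE, -⟩ := zRep_spec S a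
  rw [← hE]
  exact Divisor.mem_degZero.mp E.2

theorem size_zRep (S : Setup F₀) (a : Pic0 Qbar (FB F₀)) :
    size (zRep S a) ≤ 2 * genusFF Qbar (FB F₀) := by
  have hs := canonRep_spec S a
  have h1 : (size (canonRep S a) : ℤ) = Divisor.degree (canonRep S a) :=
    size_eq_degree_of_nonneg hs.1.1
  have h2 : size (zRep S a) ≤ size (canonRep S a) +
      size (Divisor.degree (canonRep S a) • pt S.P₀) := size_sub_le _ _
  rw [size_zsmul_pt] at h2
  have h3 := hs.2.2.1
  omega

/-- Two degree-zero divisors with the same class differ by a principal divisor. -/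
theorem isPrincipal_sub_of_mk_eq {E E' : Divisor.degZero (K := Qbar) (F := FB F₀)}
    (h : Pic0.mk E = Pic0.mk E') :
    Divisor.IsPrincipal ((E : Divisor Qbar (FB F₀)) - (E' : Divisor Qbar (FB F₀))) :=
  (mk_eq_mk_iff E E').mp h

/-- QF5: quasi-parallelogram law. -/
theorem hMW_parallelogram (S : Setup F₀) :
    ∃ C : ℝ, ∀ x y : MWG F₀, |hMW S (x + y) + hMW S (x - y) - 2 * (hMW S x + hMW S y)| ≤ C := by
  obtain ⟨C, hC⟩ := qForm_classInv S (4 * genusFF Qbar (FB F₀))
  refine ⟨2 * C, fun x y => ?_⟩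
  set a : Pic0 Qbar (FB F₀) := (x : Pic0 Qbar (FB F₀)) with ha
  set b : Pic0 Qbar (FB F₀) := (y : Pic0 Qbar (FB F₀)) with hb
  obtain ⟨Ea, hEa, hma⟩ := zRep_spec S a
  obtain ⟨Eb, hEb, hmb⟩ := zRep_spec S b
  obtain ⟨Ep, hEp, hmp⟩ := zRep_spec S (a + b)
  obtain ⟨Em, hEm, hmm⟩ := zRep_spec S (a - b)
  have sA := size_zRep S a
  have sB := size_zRep S b
  -- the sum
  have hp : Divisor.IsPrincipal (zRep S (a + b) - (zRep S a + zRep S b)) := by
    have : Pic0.mk Ep = Pic0.mk (Ea + Eb) := by rw [hmp, Pic0.mk_add, hma, hmb]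
    have := isPrincipal_sub_of_mk_eq this
    rw [hEp] at this
    rw [← hEa, ← hEb]
    exact_mod_cast this
  have hm : Divisor.IsPrincipal (zRep S (a - b) - (zRep S a - zRep S b)) := by
    have : Pic0.mk Em = Pic0.mk (Ea - Eb) := by
      rw [hmm]
      show a - b = (QuotientAddGroup.mk (Ea - Eb) : Pic0 Qbar (FB F₀))
      rw [QuotientAddGroup.mk_sub]
      show a - b = Pic0.mk Ea - Pic0.mk Eb
      rw [hma, hmb]
    have := isPrincipal_sub_of_mk_eq this
    rw [hEm] at this
    rw [← hEa, ← hEb]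
    exact_mod_cast this
  have d1 : Divisor.degree (zRep S a + zRep S b) = 0 := by
    rw [map_add, degree_zRep, degree_zRep, add_zero]
  have d2 : Divisor.degree (zRep S a - zRep S b) = 0 := by
    rw [map_sub, degree_zRep, degree_zRep, sub_zero]
  have s1 : size (zRep S a + zRep S b) ≤ 4 * genusFF Qbar (FB F₀) :=
    (size_add_le _ _).trans (by omega)
  have s2 : size (zRep S a - zRep S b) ≤ 4 * genusFF Qbar (FB F₀) :=
    (size_sub_le _ _).trans (by omega)
  have s3 : size (zRep S (a + b)) ≤ 4 * genusFF Qbar (FB F₀) :=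
    (size_zRep S (a + b)).trans (by omega)
  have s4 : size (zRep S (a - b)) ≤ 4 * genusFF Qbar (FB F₀) :=
    (size_zRep S (a - b)).trans (by omega)
  have b1 := hC _ _ (degree_zRep S (a + b)) d1 s3 s1 hp
  have b2 := hC _ _ (degree_zRep S (a - b)) d2 s4 s2 hm
  have par := Lam_parallelogram (delta S.φ) (zRep S a) (zRep S b)
  have e1 : hMW S (x + y) = - Lam (delta S.φ) (zRep S (a + b)) (zRep S (a + b)) := rfl
  have e2 : hMW S (x - y) = - Lam (delta S.φ) (zRep S (a - b)) (zRep S (a - b)) := rfl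
  have e3 : hMW S x = - Lam (delta S.φ) (zRep S a) (zRep S a) := rfl
  have e4 : hMW S y = - Lam (delta S.φ) (zRep S b) (zRep S b) := rfl
  rw [e1, e2, e3, e4]
  rw [abs_le] at b1 b2 ⊢
  constructor <;> linarith [b1.1, b1.2, b2.1, b2.2]

/-- QF6a: lower bound. -/
theorem hMW_lower (S : Setup F₀) :
    ∃ c : ℝ, 0 < c ∧ ∃ C : ℝ, ∀ x : MWG F₀,
      c * hSum (hX S.φ) (canonRep S (x : Pic0 Qbar (FB F₀))) - C ≤ hMW S x := by
  obtain ⟨c, hc, C, hC⟩ := delta_pos S
  refine ⟨c, hc, C, fun x => ?_⟩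
  have hs := canonRep_spec S (x : Pic0 Qbar (FB F₀))
  exact hC _ hs.1 hs.2.1 hs.2.2.1

theorem canonRep_injective (S : Setup F₀) :
    Function.Injective (fun a : Pic0 Qbar (FB F₀) => canonRep S a) := by
  intro a b hab
  obtain ⟨Ea, hEa, hma⟩ := zRep_spec S a
  obtain ⟨Eb, hEb, hmb⟩ := zRep_spec S b
  have hab' : canonRep S a = canonRep S b := hab
  have : Ea = Eb := by
    apply Subtype.ext
    rw [hEa, hEb, zRep, zRep, hab']
  rw [← hma, ← hmb, this]

/-- QF6b: Northcott. -/
theorem hMW_northcott (S : Setup F₀) (B : ℝ) : {x : MWG F₀ | hMW S x ≤ B}.Finite := by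
  obtain ⟨c, hc, C, hC⟩ := hMW_lower S
  have hfin := northcott_stable S (genusFF Qbar (FB F₀)) ((B + C) / c)
  have hinj : Function.Injective (fun x : MWG F₀ => canonRep S (x : Pic0 Qbar (FB F₀))) :=
    fun x y hxy => Subtype.ext (canonRep_injective S hxy)
  refine (hfin.preimage (hinj.injOn)).subset fun x hx => ?_
  have hs := canonRep_spec S (x : Pic0 Qbar (FB F₀))
  refine ⟨hs.1.1, hs.2.2.1, canonRep_stable S x, ?_⟩
  rw [le_div_iff₀ hc]
  have := hC x
  have hx' : hMW S x ≤ B := hx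
  linarith

/-- QF7 = `exists_height` of `Top.lean`. -/
theorem exists_height_H (F₀ : IntermediateField ℚ (LaurentSeries ℚ))
    [IsCurveOver Qbar (FB F₀)] [Algebra.EssFiniteType Qbar (FB F₀)] :
    ∃ h : MWG F₀ → ℝ, (∀ x, 0 ≤ h x) ∧
      (∃ C : ℝ, ∀ x y, |h (x + y) + h (x - y) - 2 * (h x + h y)| ≤ C) ∧
      (∀ B : ℝ, {x | h x ≤ B}.Finite) := by
  obtain ⟨S⟩ := exists_setup F₀
  obtain ⟨c, hc, C, hC⟩ := hMW_lower S
  obtain ⟨C₁, hC₁⟩ := hMW_parallelogram S
  refine ⟨fun x => hMW S x + |C|, fun x => ?_, ⟨C₁ + 2 * |C|, fun x y => ?_⟩, fun B => ?_⟩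
  · have hs := canonRep_spec S (x : Pic0 Qbar (FB F₀))
    have h0 : 0 ≤ hSum (hX S.φ) (canonRep S (x : Pic0 Qbar (FB F₀))) :=
      hSum_nonneg (fun P => hbar_nonneg _) hs.1.1
    have := hC x
    have h1 : 0 ≤ c * hSum (hX S.φ) (canonRep S (x : Pic0 Qbar (FB F₀))) := mul_nonneg hc.le h0
    have := le_abs_self C
    show 0 ≤ hMW S x + |C|
    linarith
  · have := hC₁ x y
    have hab := abs_nonneg C
    show |hMW S (x + y) + |C| + (hMW S (x - y) + |C|) - 2 * (hMW S x + |C| + (hMW S y + |C|))| ≤ _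
    rw [abs_le] at this ⊢
    constructor <;> linarith [this.1, this.2]
  · have := hMW_northcott S (B - |C|)
    refine this.subset fun x hx => ?_
    have hx' : hMW S x + |C| ≤ B := hx
    show hMW S x ≤ B - |C|
    linarith

end Fermat.Agent.S17.QF
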