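/-
S17 / QF — package skeleton, INTEGRATED: every statement QF1–QF7 of the frozen skeleton v2 (helper2014) is
proved in `QF/Main.lean` (same names, same namespace `Fermat.Agent.S17.QF`).  This module only re-exports it,
so that `Top.lean` keeps its import line.
-/
import Fermat.Agent.S17.QF.Main
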